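/-
S52 / block [KAdd] (B-owner helper57), Klein chart (captain's table #992).
Denominator-free certificates, valid in every commutative ring `R` with an element `z` such that
`z⁴ + z³ + z² + z + 1 = 0`:

* `xq, yq`    : the integer forms `XQ, YQ` (the rational 5-torsion point `Q(v) = P(Sv)`);
* `xp5, yp5`  : `5·XP, 5·YP` (the μ₅-point `P(v)`), `x2p5 = 5·X(2P)`;
* `xqr, yqr`  : `XQ(Rv), YQ(Rv)` for `R = diag(z³, z²)`, reduced with `z⁵ = 1`;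
* `chord_x, chord_y` : the two chord identities expressing `Q(Rv) = Q(v) - P(v)`;
* `sep1, sep2`       : `(5XQ - 5XP)·G1 = 180 f²`, `(5XQ - 5X(2P))·G2 = 180 f²`.

All cofactors were produced by exact arithmetic in `ℤ[x,y,z]` (independent pure-Python code).
Mathlib only.
-/
import Mathlib

set_option autoImplicit false
set_option maxHeartbeats 4000000

namespace Fermat.Agent.S52.KAddB

variable {R : Type*} [CommRing R]

/-- Klein's form `f = x y (x¹⁰ + 11 x⁵ y⁵ - y¹⁰)`. -/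
def kf (x y : R) : R := x * y * (x ^ 10 + 11 * x ^ 5 * y ^ 5 - y ^ 10)

/-- The integer form `XQ`. -/
def xq (x y : R) : R :=
    3*x^10 + 36*x^8*y^2 + (-36)*x^7*y^3 + 72*x^6*y^4 + 90*x^5*y^5 + 180*x^4*y^6 + 108*x^3*y^7 +
    72*x^2*y^8 + 36*x*y^9 + 3*y^10

/-- The integer form `YQ`. -/
def yq (x y : R) : R :=
    108*x^13*y^2 + 108*x^12*y^3 + 432*x^11*y^4 + 540*x^9*y^6 + 648*x^8*y^7 + 2268*x^7*y^8 + 3132*x^6*y^9 +
    2700*x^5*y^10 + 1620*x^4*y^11 + 972*x^3*y^12 + 432*x^2*y^13 + 108*x*y^14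

/-- `XQ(z³x, z²y)` reduced with `z⁵ = 1`. -/
def xqr (z x y : R) : R :=
    3*x^10 + 36*z^3*x^8*y^2 + (-36)*z^2*x^7*y^3 + 72*z*x^6*y^4 + 90*x^5*y^5 + 180*z^4*x^4*y^6 +
    108*z^3*x^3*y^7 + 72*z^2*x^2*y^8 + 36*z*x*y^9 + 3*y^10

/-- `YQ(z³x, z²y)` reduced with `z⁵ = 1`. -/
def yqr (z x y : R) : R :=
    108*z^3*x^13*y^2 + 108*z^2*x^12*y^3 + 432*z*x^11*y^4 + 540*z^4*x^9*y^6 + 648*z^3*x^8*y^7 +
    2268*z^2*x^7*y^8 + 3132*z*x^6*y^9 + 2700*x^5*y^10 + 1620*z^4*x^4*y^11 + 972*z^3*x^3*y^12 +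
    432*z^2*x^2*y^13 + 108*z*x*y^14

/-- `5·XP`, where `XP = -15(b² + c²) + (18/5)√5 (b² + 11bc - c²)`, `√5 = z - z² - z³ + z⁴`. -/
def xp5 (z x y : R) : R :=
    ((-75) + 18*z + (-18)*z^2 + (-18)*z^3 + 18*z^4)*x^10 + (198*z + (-198)*z^2 + (-198)*z^3 +
    198*z^4)*x^5*y^5 + ((-75) + (-18)*z + 18*z^2 + 18*z^3 + (-18)*z^4)*y^10

/-- `5·X(2P)`, i.e. `5·XP` at `W₀³ v = (-y, x)`. -/
def x2p5 (z x y : R) : R :=
    ((-75) + (-18)*z + 18*z^2 + 18*z^3 + (-18)*z^4)*x^10 + ((-198)*z + 198*z^2 + 198*z^3 +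
    (-198)*z^4)*x^5*y^5 + ((-75) + 18*z + (-18)*z^2 + (-18)*z^3 + 18*z^4)*y^10

/-- `5·YP`. -/
def yp5 (z x y : R) : R :=
    (108 + 216*z + (-108)*z^2 + 324*z^3)*x^15 + (972 + 1944*z + (-1512)*z^2 + 3456*z^3)*x^10*y^5 +
    ((-2484) + (-4968)*z + (-3456)*z^2 + (-1512)*z^3)*x^5*y^10 + (216 + 432*z + 324*z^2 + 108*z^3)*y^15

/-- `36·G1`. -/
def g1 (z x y : R) : R :=
    (2 + (-z^2) + (-z^3))*x^12*y^2 + ((-5) + 5*z^2 + 5*z^3)*x^10*y^4 + (5 + (-5)*z^2 + (-5)*z^3)*x^9*y^5 +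
    (5 + (-10)*z^2 + (-10)*z^3)*x^8*y^6 + (7 + 14*z^2 + 14*z^3)*x^7*y^7 + ((-15) + (-10)*z^2 +
    (-10)*z^3)*x^5*y^9 + (15 + 10*z^2 + 10*z^3)*x^4*y^10 + ((-10) + (-5)*z^2 + (-5)*z^3)*x^3*y^11 + (3 +
    z^2 + z^3)*x^2*y^12

/-- `36·G2`. -/
def g2 (z x y : R) : R :=
    (3 + z^2 + z^3)*x^12*y^2 + ((-10) + (-5)*z^2 + (-5)*z^3)*x^10*y^4 + (10 + 5*z^2 + 5*z^3)*x^9*y^5 +
    (15 + 10*z^2 + 10*z^3)*x^8*y^6 + ((-7) + (-14)*z^2 + (-14)*z^3)*x^7*y^7 + ((-5) + 10*z^2 +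
    10*z^3)*x^5*y^9 + (5 + (-10)*z^2 + (-10)*z^3)*x^4*y^10 + ((-5) + 5*z^2 + 5*z^3)*x^3*y^11 + (2 +
    (-z^2) + (-z^3))*x^2*y^12

theorem z_pow_five {z : R} (hz : z ^ 4 + z ^ 3 + z ^ 2 + z + 1 = 0) : z ^ 5 = 1 := by
  linear_combination (z - 1) * hz

theorem xq_rot (z x y : R) (hz : z ^ 4 + z ^ 3 + z ^ 2 + z + 1 = 0) :
    xq (z ^ 3 * x) (z ^ 2 * y) = xqr z x y := by
  have h5 := z_pow_five hz
  unfold xq xqr
  linear_combination ((3 + 3*z^5 + 3*z^10 + 3*z^15 + 3*z^20 + 3*z^25)*x^10 + (36*z^3 + 36*z^8 + 36*z^13 + 36*z^18 +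
    36*z^23)*x^8*y^2 + ((-36)*z^2 + (-36)*z^7 + (-36)*z^12 + (-36)*z^17 + (-36)*z^22)*x^7*y^3 + (72*z +
    72*z^6 + 72*z^11 + 72*z^16 + 72*z^21)*x^6*y^4 + (90 + 90*z^5 + 90*z^10 + 90*z^15 + 90*z^20)*x^5*y^5 +
    (180*z^4 + 180*z^9 + 180*z^14 + 180*z^19)*x^4*y^6 + (108*z^3 + 108*z^8 + 108*z^13 +
    108*z^18)*x^3*y^7 + (72*z^2 + 72*z^7 + 72*z^12 + 72*z^17)*x^2*y^8 + (36*z + 36*z^6 + 36*z^11 +
    36*z^16)*x*y^9 + (3 + 3*z^5 + 3*z^10 + 3*z^15)*y^10) * h5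

theorem yq_rot (z x y : R) (hz : z ^ 4 + z ^ 3 + z ^ 2 + z + 1 = 0) :
    yq (z ^ 3 * x) (z ^ 2 * y) = yqr z x y := by
  have h5 := z_pow_five hz
  unfold yq yqr
  linear_combination ((108*z^3 + 108*z^8 + 108*z^13 + 108*z^18 + 108*z^23 + 108*z^28 + 108*z^33 + 108*z^38)*x^13*y^2 +
    (108*z^2 + 108*z^7 + 108*z^12 + 108*z^17 + 108*z^22 + 108*z^27 + 108*z^32 + 108*z^37)*x^12*y^3 +
    (432*z + 432*z^6 + 432*z^11 + 432*z^16 + 432*z^21 + 432*z^26 + 432*z^31 + 432*z^36)*x^11*y^4 +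
    (540*z^4 + 540*z^9 + 540*z^14 + 540*z^19 + 540*z^24 + 540*z^29 + 540*z^34)*x^9*y^6 + (648*z^3 +
    648*z^8 + 648*z^13 + 648*z^18 + 648*z^23 + 648*z^28 + 648*z^33)*x^8*y^7 + (2268*z^2 + 2268*z^7 +
    2268*z^12 + 2268*z^17 + 2268*z^22 + 2268*z^27 + 2268*z^32)*x^7*y^8 + (3132*z + 3132*z^6 + 3132*z^11 +
    3132*z^16 + 3132*z^21 + 3132*z^26 + 3132*z^31)*x^6*y^9 + (2700 + 2700*z^5 + 2700*z^10 + 2700*z^15 +
    2700*z^20 + 2700*z^25 + 2700*z^30)*x^5*y^10 + (1620*z^4 + 1620*z^9 + 1620*z^14 + 1620*z^19 +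
    1620*z^24 + 1620*z^29)*x^4*y^11 + (972*z^3 + 972*z^8 + 972*z^13 + 972*z^18 + 972*z^23 +
    972*z^28)*x^3*y^12 + (432*z^2 + 432*z^7 + 432*z^12 + 432*z^17 + 432*z^22 + 432*z^27)*x^2*y^13 +
    (108*z + 108*z^6 + 108*z^11 + 108*z^16 + 108*z^21 + 108*z^26)*x*y^14) * h5

/-- `x2p5` is `xp5` at `(-y, x)`. -/
theorem x2p5_eq (z x y : R) : x2p5 z x y = xp5 z (-y) x := by
  unfold x2p5 xp5; ring

/-- Chord identity, `x`-coordinate: `(YQ + YP)² = (XQ(Rv) + XQ + XP)(XQ - XP)²`, scaled by `125`. -/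
theorem chord_x (z x y : R) (hz : z ^ 4 + z ^ 3 + z ^ 2 + z + 1 = 0) :
    5 * (5 * yq x y + yp5 z x y) ^ 2 =
      (5 * xqr z x y + 5 * xq x y + xp5 z x y) * (5 * xq x y - xp5 z x y) ^ 2 := by
  unfold xq yq xqr xp5 yp5
  linear_combination ((422820 + (-481140)*z + 539460*z^2 + (-224532)*z^3 + 154548*z^4 + (-46656)*z^5 + (-17496)*z^6 +
    23328*z^7 + (-5832)*z^8)*x^30 + (583200 + 291600*z + (-1108080)*z^2 + 699840*z^3 + (-233280)*z^4 +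
    (-58320)*z^5 + 174960*z^6 + (-58320)*z^7)*x^28*y^2 + (583200 + 874800*z + (-933120)*z^2 + 466560*z^3 +
    (-174960)*z^5 + 58320*z^6)*x^27*y^3 + ((-583200) + 2332800*z + (-2799360)*z^2 + 699840*z^3 +
    466560*z^4 + (-116640)*z^5)*x^26*y^4 + (9068760 + (-8514720)*z + 12043080*z^2 + (-6170256)*z^3 +
    4298184*z^4 + (-1539648)*z^5 + (-577368)*z^6 + 769824*z^7 + (-192456)*z^8)*x^25*y^5 + ((-11664000) +
    7290000*z + (-3207600)*z^2 + (-4374000)*z^3 + 4665600*z^4 + (-1458000)*z^5 + (-291600)*z^6 +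
    874800*z^7 + (-291600)*z^8)*x^24*y^6 + (18954000 + 9622800*z + (-23036400)*z^2 + 13996800*z^3 +
    (-5832000)*z^4 + (-1458000)*z^5 + 4374000*z^6 + (-1458000)*z^7)*x^23*y^7 + ((-21870000) + 26827200*z +
    (-26827200)*z^2 + 3499200*z^3 + 5832000*z^4 + (-3499200)*z^5 + 1166400*z^6)*x^22*y^8 + (32076000 +
    45489600*z + (-55987200)*z^2 + 20995200*z^3 + 4665600*z^4 + (-2624400)*z^5)*x^21*y^9 + ((-63568800) +
    583200*z + 56570400*z^2 + (-65668320)*z^3 + 49805280*z^4 + (-16796160)*z^5 + (-6298560)*z^6 +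
    8398080*z^7 + (-2099520)*z^8)*x^20*y^10 + ((-74358000) + 142884000*z + (-53071200)*z^2 +
    (-78732000)*z^3 + 85147200*z^4 + (-32076000)*z^5 + (-6415200)*z^6 + 19245600*z^7 +
    (-6415200)*z^8)*x^19*y^11 + ((-145800000) + 134427600*z + (-131511600)*z^2 + 23328000*z^3 +
    (-13996800)*z^4 + (-10789200)*z^5 + 32367600*z^6 + (-10789200)*z^7)*x^18*y^12 + ((-74358000) +
    224240400*z + (-202953600)*z^2 + (-46656000)*z^3 + 81648000*z^4 + (-13122000)*z^5 +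
    4374000*z^6)*x^17*y^13 + ((-196830000) + 225115200*z + (-285768000)*z^2 + 130636800*z^3 +
    8164800*z^4 + (-15163200)*z^5)*x^16*y^14 + ((-461311200) + 404886600*z + (-121014000)*z^2 +
    (-280315080)*z^3 + 237420720*z^4 + (-59019840)*z^5 + (-22132440)*z^6 + 29509920*z^7 +
    (-7377480)*z^8)*x^15*y^15 + ((-841266000) + 680886000*z + (-195080400)*z^2 + (-333882000)*z^3 +
    368582400*z^4 + (-173502000)*z^5 + (-34700400)*z^6 + 104101200*z^7 + (-34700400)*z^8)*x^14*y^16 +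
    ((-938952000) + 696049200*z + (-136760400)*z^2 + (-502718400)*z^3 + 242611200*z^4 + (-19537200)*z^5 +
    58611600*z^6 + (-19537200)*z^7)*x^13*y^17 + ((-1007478000) + 375580800*z + (-221616000)*z^2 +
    (-307929600)*z^3 + 186624000*z^4 + 45489600*z^5 + (-15163200)*z^6)*x^12*y^18 + ((-1036638000) +
    82814400*z + (-100310400)*z^2 + (-177292800)*z^3 + 151632000*z^4 + (-4374000)*z^5)*x^11*y^19 +
    ((-871009200) + 81064800*z + (-33242400)*z^2 + (-50971680)*z^3 + 31842720*z^4 + 16796160*z^5 +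
    6298560*z^6 + (-8398080)*z^7 + 2099520*z^8)*x^10*y^20 + ((-654642000) + (-78732000)*z +
    (-11080800)*z^2 + 14580000*z^3 + (-20995200)*z^4 + 32076000*z^5 + 6415200*z^6 + (-19245600)*z^7 +
    6415200*z^8)*x^9*y^21 + ((-433026000) + (-99435600)*z + (-1458000)*z^2 + 60652800*z^3 +
    (-13996800)*z^4 + 3790800*z^5 + (-11372400)*z^6 + 3790800*z^7)*x^8*y^22 + ((-256608000) +
    (-55112400)*z + 26827200*z^2 + 38491200*z^3 + (-17496000)*z^4 + (-7873200)*z^5 +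
    2624400*z^6)*x^7*y^23 + ((-121014000) + (-9331200)*z + 13996800*z^2 + 17496000*z^3 + (-16329600)*z^4 +
    1166400*z^5)*x^6*y^24 + ((-49834440) + (-17554320)*z + 1837080*z^2 + 9284544*z^3 + (-4741416)*z^4 +
    (-1539648)*z^5 + (-577368)*z^6 + 769824*z^7 + (-192456)*z^8)*x^5*y^25 + ((-11664000) + 1458000*z +
    2624400*z^2 + 1458000*z^3 + (-1166400)*z^4 + (-1458000)*z^5 + (-291600)*z^6 + 874800*z^7 +
    (-291600)*z^8)*x^4*y^26 + ((-1166400) + 3207600*z + 1341360*z^2 + (-1399680)*z^3 + (-699840)*z^4 +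
    (-174960)*z^5 + 524880*z^6 + (-174960)*z^7)*x^3*y^27 + (1749600 + 1749600*z + (-466560)*z^2 +
    (-933120)*z^3 + 349920*z^5 + (-116640)*z^6)*x^2*y^28 + (1166400 + (-233280)*z^2 + (-233280)*z^3 +
    233280*z^4 + (-58320)*z^5)*x*y^29 + (597780 + 626940*z + 189540*z^2 + (-212868)*z^3 + (-8748)*z^4 +
    46656*z^5 + 17496*z^6 + (-23328)*z^7 + 5832*z^8)*y^30) * hz

/-- Chord identity, `y`-coordinate:
`YQ(Rv)(XQ - XP) = (YQ + YP)(XQ - XQ(Rv)) - YQ (XQ - XP)`, scaled by `25`. -/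
theorem chord_y (z x y : R) (hz : z ^ 4 + z ^ 3 + z ^ 2 + z + 1 = 0) :
    5 * yqr z x y * (5 * xq x y - xp5 z x y) =
      (5 * yq x y + yp5 z x y) * (5 * xq x y - 5 * xqr z x y) -
        5 * yq x y * (5 * xq x y - xp5 z x y) := by
  unfold xq yq xqr yqr xp5 yp5
  linear_combination ((29160 + (-77760)*z + 77760*z^2 + (-9720)*z^3)*x^23*y^2 + (68040 + (-38880)*z +
    (-9720)*z^2)*x^22*y^3 + (155520 + (-38880)*z)*x^21*y^4 + (145800 + 194400*z + (-388800)*z^2 +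
    388800*z^3 + (-48600)*z^4)*x^19*y^6 + (301320 + (-1127520)*z + 1127520*z^2 + (-165240)*z^3)*x^18*y^7 +
    (1399680 + 116640*z + (-311040)*z^2)*x^17*y^8 + (2012040 + (-709560)*z)*x^16*y^9 + 2430000*x^15*y^10 +
    (1069200 + 1749600*z + (-4471200)*z^2 + 4471200*z^3 + (-680400)*z^4)*x^14*y^11 + (4296240 +
    (-3032640)*z + 3032640*z^2 + (-719280)*z^3)*x^13*y^12 + (2118960 + 6065280*z +
    (-2274480)*z^2)*x^12*y^13 + (12869280 + (-3071520)*z)*x^11*y^14 + 12150000*x^10*y^15 + (18273600 +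
    (-4471200)*z + (-1749600)*z^2 + 1749600*z^3 + (-1555200)*z^4)*x^9*y^16 + (11071080 + (-1010880)*z +
    1010880*z^2 + (-903960)*z^3)*x^8*y^17 + (7785720 + (-116640)*z + (-223560)*z^2)*x^7*y^18 + (4451760 +
    174960*z)*x^6*y^19 + 2430000*x^5*y^20 + (534600 + 388800*z + 194400*z^2 + (-194400)*z^3 +
    145800*z^4)*x^4*y^21 + (320760 + 116640*z + (-116640)*z^2 + 87480*z^3)*x^3*y^22 + (116640 +
    (-38880)*z + 38880*z^2)*x^2*y^23 + (9720 + 9720*z)*x*y^24) * hz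

/-- `(XQ - XP)·G1 = f²`, scaled by `180`. -/
theorem sep1 (z x y : R) (hz : z ^ 4 + z ^ 3 + z ^ 2 + z + 1 = 0) :
    (5 * xq x y - xp5 z x y) * g1 z x y = 180 * kf x y ^ 2 := by
  unfold xq xp5 g1 kf
  linear_combination (((-36)*z + (-18)*z^2 + 18*z^3)*x^22*y^2 + ((-90) + 180*z + 90*z^2 + (-90)*z^3)*x^20*y^4 + (90 +
    (-180)*z + (-90)*z^2 + 90*z^3)*x^19*y^5 + (270 + (-360)*z + (-180)*z^2 + 180*z^3)*x^18*y^6 + ((-630) +
    108*z + 54*z^2 + (-54)*z^3)*x^17*y^7 + ((-360) + 1620*z + 810*z^2 + (-810)*z^3)*x^15*y^9 + (360 +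
    (-1620)*z + (-810)*z^2 + 810*z^3)*x^14*y^10 + (3330 + (-4140)*z + (-2070)*z^2 + 2070*z^3)*x^13*y^11 +
    ((-7020) + 5616*z + 2808*z^2 + (-2808)*z^3)*x^12*y^12 + (7020 + (-4140)*z + (-2070)*z^2 +
    2070*z^3)*x^10*y^14 + ((-7020) + 4140*z + 2070*z^2 + (-2070)*z^3)*x^9*y^15 + (3690 + (-1620)*z +
    (-810)*z^2 + 810*z^3)*x^8*y^16 + ((-360) + (-108)*z + (-54)*z^2 + 54*z^3)*x^7*y^17 + ((-630) + 360*z +
    180*z^2 + (-180)*z^3)*x^5*y^19 + (630 + (-360)*z + (-180)*z^2 + 180*z^3)*x^4*y^20 + ((-360) + 180*z +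
    90*z^2 + (-90)*z^3)*x^3*y^21 + (90 + (-36)*z + (-18)*z^2 + 18*z^3)*x^2*y^22) * hz

/-- `(XQ - X(2P))·G2 = f²`, scaled by `180`. -/
theorem sep2 (z x y : R) (hz : z ^ 4 + z ^ 3 + z ^ 2 + z + 1 = 0) :
    (5 * xq x y - x2p5 z x y) * g2 z x y = 180 * kf x y ^ 2 := by
  unfold xq x2p5 g2 kf
  linear_combination ((90 + (-36)*z + (-18)*z^2 + 18*z^3)*x^22*y^2 + ((-360) + 180*z + 90*z^2 + (-90)*z^3)*x^20*y^4 + (360 +
    (-180)*z + (-90)*z^2 + 90*z^3)*x^19*y^5 + (630 + (-360)*z + (-180)*z^2 + 180*z^3)*x^18*y^6 + (360 +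
    108*z + 54*z^2 + (-54)*z^3)*x^17*y^7 + ((-3690) + 1620*z + 810*z^2 + (-810)*z^3)*x^15*y^9 + (3690 +
    (-1620)*z + (-810)*z^2 + 810*z^3)*x^14*y^10 + (7020 + (-4140)*z + (-2070)*z^2 + 2070*z^3)*x^13*y^11 +
    ((-7020) + 5616*z + 2808*z^2 + (-2808)*z^3)*x^12*y^12 + (3330 + (-4140)*z + (-2070)*z^2 +
    2070*z^3)*x^10*y^14 + ((-3330) + 4140*z + 2070*z^2 + (-2070)*z^3)*x^9*y^15 + (360 + (-1620)*z +
    (-810)*z^2 + 810*z^3)*x^8*y^16 + (630 + (-108)*z + (-54)*z^2 + 54*z^3)*x^7*y^17 + ((-270) + 360*z +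
    180*z^2 + (-180)*z^3)*x^5*y^19 + (270 + (-360)*z + (-180)*z^2 + 180*z^3)*x^4*y^20 + ((-90) + 180*z +
    90*z^2 + (-90)*z^3)*x^3*y^21 + ((-36)*z + (-18)*z^2 + 18*z^3)*x^2*y^22) * hz

/-- Consequence: if `180 f(v)²` is not a zero divisor issue, i.e. over a field with
`(180 : K) ≠ 0` and `f(v) ≠ 0`, then `XQ ≠ XP` and `XQ ≠ X(2P)` (in the `5·` normalisation). -/
theorem xq_ne_xp {K : Type*} [Field K] (z x y : K) (hz : z ^ 4 + z ^ 3 + z ^ 2 + z + 1 = 0)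
    (h180 : (180 : K) ≠ 0) (hf : kf x y ≠ 0) : 5 * xq x y ≠ xp5 z x y := by
  intro h
  have := sep1 z x y hz
  rw [h, sub_self, zero_mul] at this
  exact mul_ne_zero h180 (pow_ne_zero 2 hf) this.symm

theorem xq_ne_x2p {K : Type*} [Field K] (z x y : K) (hz : z ^ 4 + z ^ 3 + z ^ 2 + z + 1 = 0)
    (h180 : (180 : K) ≠ 0) (hf : kf x y ≠ 0) : 5 * xq x y ≠ x2p5 z x y := by
  intro h
  have := sep2 z x y hz
  rw [h, sub_self, zero_mul] at this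
  exact mul_ne_zero h180 (pow_ne_zero 2 hf) this.symm

end Fermat.Agent.S52.KAddB
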