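/-
S52 / block [KAdd] (B-owner helper57).  Generic chord lemma on a short Weierstrass curve
`y² = x³ + a₄ x + a₆` over a field: if two points have different `x`-coordinates and the two
denominator-free chord identities hold, the difference of the points is the expected point.
Mathlib only.
-/
import Mathlib

set_option autoImplicit false

open WeierstrassCurve WeierstrassCurve.Affine

namespace Fermat.Agent.S52.KAddB

variable {F : Type*} [Field F] [DecidableEq F]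

/-- Chord rule for a difference, denominator-free form (`a₁ = a₂ = a₃ = 0`).
With `(x₁, y₁) = Q`, `(x₂, y₂) = P`, `(x₃, y₃) = Q - P`. -/
theorem exists_sub_eq_some (W : WeierstrassCurve.Affine F)
    (ha₁ : W.a₁ = 0) (ha₂ : W.a₂ = 0) (ha₃ : W.a₃ = 0)
    {x₁ y₁ x₂ y₂ x₃ y₃ : F} (h₁ : W.Nonsingular x₁ y₁) (h₂ : W.Nonsingular x₂ y₂)
    (hx : x₁ ≠ x₂)
    (hX : (y₁ + y₂) ^ 2 = (x₃ + x₁ + x₂) * (x₁ - x₂) ^ 2)
    (hY : y₃ * (x₁ - x₂) = (y₁ + y₂) * (x₁ - x₃) - y₁ * (x₁ - x₂)) :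
    ∃ h₃ : W.Nonsingular x₃ y₃, Point.some x₁ y₁ h₁ - Point.some x₂ y₂ h₂ = Point.some x₃ y₃ h₃ := by
  have hd : x₁ - x₂ ≠ 0 := sub_ne_zero.mpr hx
  have hs : W.slope x₁ x₂ y₁ (W.negY x₂ y₂) = (y₁ + y₂) / (x₁ - x₂) := by
    rw [slope_of_X_ne hx, negY, ha₁, ha₃]; congr 1; ring
  have hx3 : W.addX x₁ x₂ (W.slope x₁ x₂ y₁ (W.negY x₂ y₂)) = x₃ := by
    rw [hs, addX, ha₁, ha₂]
    field_simp
    linear_combination hX
  have hy3 : W.addY x₁ x₂ y₁ (W.slope x₁ x₂ y₁ (W.negY x₂ y₂)) = y₃ := by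
    rw [addY, negAddY, hx3, hs, negY, ha₁, ha₃]
    field_simp
    linear_combination -hY
  have hns := nonsingular_add h₁ ((nonsingular_neg ..).mpr h₂) (fun hxy => hx hxy.1)
  rw [hx3, hy3] at hns
  refine ⟨hns, ?_⟩
  rw [sub_eq_add_neg, Point.neg_some, Point.add_of_X_ne hx]
  simp only [Point.some.injEq]
  exact ⟨hx3, hy3⟩

/-- Variant with a given nonsingularity proof for the third point. -/
theorem sub_eq_some (W : WeierstrassCurve.Affine F)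
    (ha₁ : W.a₁ = 0) (ha₂ : W.a₂ = 0) (ha₃ : W.a₃ = 0)
    {x₁ y₁ x₂ y₂ x₃ y₃ : F} (h₁ : W.Nonsingular x₁ y₁) (h₂ : W.Nonsingular x₂ y₂)
    (h₃ : W.Nonsingular x₃ y₃) (hx : x₁ ≠ x₂)
    (hX : (y₁ + y₂) ^ 2 = (x₃ + x₁ + x₂) * (x₁ - x₂) ^ 2)
    (hY : y₃ * (x₁ - x₂) = (y₁ + y₂) * (x₁ - x₃) - y₁ * (x₁ - x₂)) :
    Point.some x₁ y₁ h₁ - Point.some x₂ y₂ h₂ = Point.some x₃ y₃ h₃ := by
  obtain ⟨_, h⟩ := exists_sub_eq_some W ha₁ ha₂ ha₃ h₁ h₂ hx hX hY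
  exact h

end Fermat.Agent.S52.KAddB
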